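/-
PROJECT R (S43, row 37), block `Local`, kit file `Order` (helper6).  Mathlib only.

For finitely many variables: `f ∈ (span (range X)) ^ n ↔ every coefficient of degree < n vanishes`,
and the truncation statement `f - ∑_{deg d < n} monomial d (coeff d f) ∈ (span (range X)) ^ n`
in the form used by the local algebra: a ring homomorphism that sends the variables into an ideal
`𝔪` sends a series whose coefficients of degree `< n` vanish into `𝔪 ^ n`.
-/
import Mathlib

set_option autoImplicit false

noncomputable section

namespace Fermat.Agent.S43.Local.Kit.Order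

open MvPowerSeries Finsupp
open scoped Classical

variable {σ R : Type*} [CommRing R]

/-- the ideal of the variables. -/
def varIdeal (σ R : Type*) [CommRing R] : Ideal (MvPowerSeries σ R) :=
  Ideal.span (Set.range X)

/-- the series whose coefficients of degree `< n` vanish. -/
def lowZero (n : ℕ) : Ideal (MvPowerSeries σ R) where
  carrier := {f | ∀ d : σ →₀ ℕ, degree d < n → coeff d f = 0}
  add_mem' := by
    intro f g hf hg d hd
    rw [map_add, hf d hd, hg d hd, add_zero]
  zero_mem' := by
    intro d _
    simp
  smul_mem' := by
    classical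
    intro c f hf d hd
    rw [smul_eq_mul, coeff_mul]
    refine Finset.sum_eq_zero fun p hp => ?_
    rw [Finset.HasAntidiagonal.mem_antidiagonal] at hp
    have : degree p.2 < n := by
      have h1 : degree p.1 + degree p.2 = degree d := by
        rw [← hp, map_add]
      omega
    rw [hf p.2 this, mul_zero]

theorem mem_lowZero {n : ℕ} {f : MvPowerSeries σ R} :
    f ∈ lowZero n ↔ ∀ d : σ →₀ ℕ, degree d < n → coeff d f = 0 := Iff.rfl

theorem lowZero_mul_le (a b : ℕ) :
    (lowZero a : Ideal (MvPowerSeries σ R)) * lowZero b ≤ lowZero (a + b) := by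
  classical
  rw [Ideal.mul_le]
  intro f hf g hg d hd
  rw [coeff_mul]
  refine Finset.sum_eq_zero fun p hp => ?_
  rw [Finset.HasAntidiagonal.mem_antidiagonal] at hp
  have h1 : degree p.1 + degree p.2 = degree d := by
    rw [← hp, map_add]
  by_cases h : degree p.1 < a
  · rw [hf p.1 h, zero_mul]
  · have : degree p.2 < b := by omega
    rw [hg p.2 this, mul_zero]

theorem varIdeal_le_lowZero : varIdeal σ R ≤ lowZero 1 := by
  classical
  unfold varIdeal
  rw [Ideal.span_le]
  rintro _ ⟨s, rfl⟩ d hd
  have hd0 : d = 0 := by
    have : degree d = 0 := by omega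
    exact (degree_eq_zero_iff d).mp this
  subst hd0
  rw [coeff_zero_X]

/-- elements of the `n`-th power of the ideal of variables have no coefficient of degree `< n`. -/
theorem varIdeal_pow_le_lowZero (n : ℕ) : varIdeal σ R ^ n ≤ lowZero n := by
  induction n with
  | zero =>
    intro f _ d hd
    exact absurd hd (Nat.not_lt_zero _)
  | succ n ih =>
    rw [pow_succ]
    refine le_trans (Ideal.mul_mono ih varIdeal_le_lowZero) ?_
    exact lowZero_mul_le n 1

/-- a choice of a variable occurring in a nonzero exponent. -/
def pick [Inhabited σ] (e : σ →₀ ℕ) : σ :=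
  if h : e.support.Nonempty then h.choose else default

theorem pick_mem [Inhabited σ] {e : σ →₀ ℕ} (h : e ≠ 0) : e (pick e) ≠ 0 := by
  have hs : e.support.Nonempty := Finsupp.support_nonempty_iff.mpr h
  unfold pick
  rw [dif_pos hs]
  exact Finsupp.mem_support_iff.mp hs.choose_spec

/-- the part of `f` attached to the variable `s`. -/
def part [Inhabited σ] (f : MvPowerSeries σ R) (s : σ) : MvPowerSeries σ R :=
  fun e => if pick (e + single s 1) = s then coeff (e + single s 1) f else 0

theorem coeff_part [Inhabited σ] (f : MvPowerSeries σ R) (s : σ) (e : σ →₀ ℕ) :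
    coeff e (part f s) = if pick (e + single s 1) = s then coeff (e + single s 1) f else 0 := rfl

variable [Fintype σ]

theorem eq_sum_X_mul_part [Inhabited σ] (f : MvPowerSeries σ R) (h0 : constantCoeff f = 0) :
    f = ∑ s : σ, X s * part f s := by
  classical
  ext e
  rw [map_sum]
  by_cases he : e = 0
  · subst he
    rw [coeff_zero_eq_constantCoeff_apply, h0]
    symm
    refine Finset.sum_eq_zero fun s _ => ?_
    rw [X, coeff_monomial_mul, if_neg]
    intro hle
    have := hle s
    simp at this
  · have hp := pick_mem he
    rw [Finset.sum_eq_single (pick e)]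
    · rw [X, coeff_monomial_mul, if_pos, one_mul, coeff_part]
      · have : e - single (pick e) 1 + single (pick e) 1 = e := by
          ext t
          by_cases ht : t = pick e
          · subst ht
            simp only [Finsupp.coe_add, Finsupp.coe_tsub, Pi.add_apply, Pi.sub_apply,
              Finsupp.single_eq_same]
            omega
          · simp [Ne.symm ht]
        rw [this, if_pos rfl]
      · intro t
        by_cases ht : t = pick e
        · subst ht
          simp only [Finsupp.single_eq_same]
          omega
        · simp [Ne.symm ht]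
    · intro s _ hs
      rw [X, coeff_monomial_mul]
      split_ifs with hle
      · rw [one_mul, coeff_part]
        have : e - single s 1 + single s 1 = e := by
          ext t
          have := hle t
          by_cases ht : t = s
          · subst ht
            simp only [Finsupp.single_eq_same] at this
            simp only [Finsupp.coe_add, Finsupp.coe_tsub, Pi.add_apply, Pi.sub_apply,
              Finsupp.single_eq_same]
            omega
          · simp [Ne.symm ht]
        rw [this, if_neg (Ne.symm hs)]
      · rfl
    · intro h
      exact absurd (Finset.mem_univ _) h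

omit [Fintype σ] in
theorem part_mem_lowZero [Inhabited σ] {n : ℕ} {f : MvPowerSeries σ R} (hf : f ∈ lowZero (n + 1))
    (s : σ) : part f s ∈ lowZero n := by
  intro e he
  rw [coeff_part]
  split_ifs
  · apply hf
    rw [map_add, degree_single]
    omega
  · rfl

/-- a series without coefficients of degree `< n` lies in the `n`-th power of the ideal of the
variables. -/
theorem lowZero_le_varIdeal_pow (n : ℕ) : lowZero n ≤ varIdeal σ R ^ n := by
  induction n with
  | zero =>
    intro f _
    simp
  | succ n ih =>
    intro f hf
    by_cases hσ : Nonempty σ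
    · have : Inhabited σ := ⟨hσ.some⟩
      have h0 : constantCoeff f = 0 := by
        rw [← coeff_zero_eq_constantCoeff_apply]
        apply hf
        simp
      rw [eq_sum_X_mul_part f h0, pow_succ']
      refine Ideal.sum_mem _ fun s _ => ?_
      exact Ideal.mul_mem_mul (Ideal.subset_span ⟨s, rfl⟩) (ih (part_mem_lowZero hf s))
    · have : IsEmpty σ := not_nonempty_iff.mp hσ
      have : f = 0 := by
        ext e
        have he : e = 0 := Subsingleton.elim _ _
        subst he
        rw [hf 0 (by simp)]
        simp
      rw [this]
      exact zero_mem _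

theorem varIdeal_pow_eq_lowZero (n : ℕ) : varIdeal σ R ^ n = lowZero n :=
  le_antisymm (varIdeal_pow_le_lowZero n) (lowZero_le_varIdeal_pow n)

theorem mem_varIdeal_pow_iff {n : ℕ} {f : MvPowerSeries σ R} :
    f ∈ varIdeal σ R ^ n ↔ ∀ d : σ →₀ ℕ, degree d < n → coeff d f = 0 := by
  rw [varIdeal_pow_eq_lowZero]
  rfl

/-- a ring homomorphism sending every variable into an ideal `𝔪` sends the series without
coefficients of degree `< n` into `𝔪 ^ n`. -/
theorem map_mem_pow_of_lowZero {D : Type*} [CommRing D] (φ : MvPowerSeries σ R →+* D)
    (𝔪 : Ideal D) (hφ : ∀ s, φ (X s) ∈ 𝔪) {n : ℕ} {f : MvPowerSeries σ R}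
    (hf : ∀ d : σ →₀ ℕ, degree d < n → coeff d f = 0) : φ f ∈ 𝔪 ^ n := by
  have h1 : f ∈ varIdeal σ R ^ n := mem_varIdeal_pow_iff.mpr hf
  have h2 : (varIdeal σ R).map φ ≤ 𝔪 := by
    unfold varIdeal
    rw [Ideal.map_span, Ideal.span_le]
    rintro _ ⟨_, ⟨s, rfl⟩, rfl⟩
    exact hφ s
  have h3 : φ f ∈ ((varIdeal σ R) ^ n).map φ := Ideal.mem_map_of_mem φ h1
  rw [Ideal.map_pow] at h3
  exact Ideal.pow_right_mono h2 n h3

end Fermat.Agent.S43.Local.Kit.Order
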