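/-
PROJECT R (S43, row 37), block `Local`, kit file `SumInner` (inl = INNER orientation; helper25 owns Kit/SumEquiv) (helper6).  Mathlib only.

`sumAlgEquiv : MvPowerSeries (τ ⊕ σ) R ≃ₐ[R] MvPowerSeries σ (MvPowerSeries τ R)`:
power series in the variables `τ ⊕ σ` are power series in the (outer) variables `σ` whose
coefficients are power series in the (inner) variables `τ`.
-/
import Mathlib

set_option autoImplicit false

noncomputable section

namespace Fermat.Agent.S43.Local.Kit.SumInner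

open MvPowerSeries Finsupp Finset

variable {σ τ R : Type*} [CommSemiring R]

/-- the inner part of an exponent. -/
def inn (x : (τ ⊕ σ) →₀ ℕ) : τ →₀ ℕ := (sumFinsuppEquivProdFinsupp x).1

/-- the outer part of an exponent. -/
def out (x : (τ ⊕ σ) →₀ ℕ) : σ →₀ ℕ := (sumFinsuppEquivProdFinsupp x).2

@[simp] theorem inn_apply (x : (τ ⊕ σ) →₀ ℕ) (t : τ) : inn x t = x (Sum.inl t) := rfl

@[simp] theorem out_apply (x : (τ ⊕ σ) →₀ ℕ) (s : σ) : out x s = x (Sum.inr s) := rfl

@[simp] theorem inn_sumElim (b : τ →₀ ℕ) (a : σ →₀ ℕ) : inn (Finsupp.sumElim b a) = b := by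
  ext t; simp

@[simp] theorem out_sumElim (b : τ →₀ ℕ) (a : σ →₀ ℕ) : out (Finsupp.sumElim b a) = a := by
  ext s; simp

@[simp] theorem sumElim_inn_out (x : (τ ⊕ σ) →₀ ℕ) : Finsupp.sumElim (inn x) (out x) = x := by
  ext t; cases t <;> simp

@[simp] theorem inn_add (x y : (τ ⊕ σ) →₀ ℕ) : inn (x + y) = inn x + inn y := by
  ext t; simp

@[simp] theorem out_add (x y : (τ ⊕ σ) →₀ ℕ) : out (x + y) = out x + out y := by
  ext s; simp

variable (σ τ R) in
/-- implementation of `sumAlgEquiv`. -/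
def sumFun (p : MvPowerSeries (τ ⊕ σ) R) : MvPowerSeries σ (MvPowerSeries τ R) :=
  fun a => fun b => coeff (Finsupp.sumElim b a) p

theorem coeff_coeff_sumFun (p : MvPowerSeries (τ ⊕ σ) R) (a : σ →₀ ℕ) (b : τ →₀ ℕ) :
    coeff b (coeff a (sumFun σ τ R p)) = coeff (Finsupp.sumElim b a) p := rfl

variable (σ τ R) in
/-- implementation of the inverse of `sumAlgEquiv`. -/
def sumInv (p : MvPowerSeries σ (MvPowerSeries τ R)) : MvPowerSeries (τ ⊕ σ) R :=
  fun x => coeff (inn x) (coeff (out x) p)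

theorem coeff_sumInv (p : MvPowerSeries σ (MvPowerSeries τ R)) (x : (τ ⊕ σ) →₀ ℕ) :
    coeff x (sumInv σ τ R p) = coeff (inn x) (coeff (out x) p) := rfl

theorem sumFun_mul (p q : MvPowerSeries (τ ⊕ σ) R) :
    sumFun σ τ R (p * q) = sumFun σ τ R p * sumFun σ τ R q := by
  classical
  ext a b
  simp only [coeff_coeff_sumFun, coeff_mul, map_sum, sum_sigma']
  refine sum_bij (fun y _ ↦ ⟨(out y.1, out y.2), (inn y.1, inn y.2)⟩) ?_ ?_ ?_ ?_
  · intro y hy
    simp only [HasAntidiagonal.mem_antidiagonal] at hy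
    simp only [mem_sigma, HasAntidiagonal.mem_antidiagonal]
    refine ⟨?_, ?_⟩
    · rw [← out_add, hy, out_sumElim]
    · rw [← inn_add, hy, inn_sumElim]
  · intro y _ z _ h
    simp only [Sigma.mk.injEq, heq_eq_eq, Prod.mk.injEq] at h
    obtain ⟨⟨h1, h2⟩, h3, h4⟩ := h
    ext1
    · rw [← sumElim_inn_out y.1, ← sumElim_inn_out z.1, h1, h3]
    · rw [← sumElim_inn_out y.2, ← sumElim_inn_out z.2, h2, h4]
  · rintro ⟨⟨a1, a2⟩, ⟨b1, b2⟩⟩ h
    simp only [mem_sigma, HasAntidiagonal.mem_antidiagonal] at h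
    refine ⟨(Finsupp.sumElim b1 a1, Finsupp.sumElim b2 a2), ?_, ?_⟩
    · simp only [HasAntidiagonal.mem_antidiagonal]
      ext t
      cases t with
      | inl t => simpa using DFunLike.congr_fun h.2 t
      | inr s => simpa using DFunLike.congr_fun h.1 s
    · simp
  · intro y _
    simp only [sumElim_inn_out]

variable (σ τ R) in
/-- **K1**: power series in `τ ⊕ σ` are power series in `σ` over power series in `τ`. -/
def sumAlgEquiv : MvPowerSeries (τ ⊕ σ) R ≃ₐ[R] MvPowerSeries σ (MvPowerSeries τ R) where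
  toFun := sumFun σ τ R
  invFun := sumInv σ τ R
  left_inv p := by
    ext x
    rw [coeff_sumInv, coeff_coeff_sumFun, sumElim_inn_out]
  right_inv p := by
    ext a b
    rw [coeff_coeff_sumFun, coeff_sumInv, inn_sumElim, out_sumElim]
  map_mul' := sumFun_mul
  map_add' _ _ := by
    ext a b
    simp [coeff_coeff_sumFun]
  commutes' r := by
    classical
    ext a b
    rw [coeff_coeff_sumFun, MvPowerSeries.algebraMap_apply, MvPowerSeries.algebraMap_apply,
      MvPowerSeries.algebraMap_apply, coeff_C, coeff_C]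
    simp only [Algebra.algebraMap_self, RingHom.id_apply]
    by_cases ha : a = 0
    · subst ha
      simp only [if_true, coeff_C]
      by_cases hb : b = 0
      · subst hb; simp
      · rw [if_neg hb, if_neg]
        intro h
        apply hb
        rw [← inn_sumElim b (0 : σ →₀ ℕ), h]
        ext t; simp
    · rw [if_neg ha, if_neg]
      · simp
      · intro h
        apply ha
        rw [← out_sumElim b a, h]
        ext s; simp

theorem coeff_coeff_sumAlgEquiv (p : MvPowerSeries (τ ⊕ σ) R) (a : σ →₀ ℕ) (b : τ →₀ ℕ) :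
    coeff b (coeff a (sumAlgEquiv σ τ R p)) = coeff (Finsupp.sumElim b a) p := rfl

theorem coeff_sumAlgEquiv_symm (p : MvPowerSeries σ (MvPowerSeries τ R)) (x : (τ ⊕ σ) →₀ ℕ) :
    coeff x ((sumAlgEquiv σ τ R).symm p) = coeff (inn x) (coeff (out x) p) := rfl

theorem sumElim_eq_iff (b : τ →₀ ℕ) (a : σ →₀ ℕ) (x : (τ ⊕ σ) →₀ ℕ) :
    Finsupp.sumElim b a = x ↔ a = out x ∧ b = inn x := by
  constructor
  · rintro rfl
    simp
  · rintro ⟨rfl, rfl⟩
    simp

theorem sumAlgEquiv_monomial (x : (τ ⊕ σ) →₀ ℕ) (r : R) :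
    sumAlgEquiv σ τ R (monomial x r) = monomial (out x) (monomial (inn x) r) := by
  classical
  ext a b
  rw [coeff_coeff_sumAlgEquiv, coeff_monomial, coeff_monomial]
  by_cases ha : a = out x
  · subst ha
    rw [if_pos rfl, coeff_monomial]
    by_cases hb : b = inn x
    · subst hb
      rw [if_pos rfl, if_pos (sumElim_inn_out x)]
    · rw [if_neg hb, if_neg]
      intro h
      exact hb ((sumElim_eq_iff _ _ _).mp h).2
  · rw [if_neg ha, if_neg]
    · simp
    · intro h
      exact ha ((sumElim_eq_iff _ _ _).mp h).1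

theorem sumAlgEquiv_X_inl (t : τ) :
    sumAlgEquiv σ τ R (X (Sum.inl t)) = C (X t) := by
  have h := sumAlgEquiv_monomial (σ := σ) (τ := τ) (R := R) (single (Sum.inl t) 1) 1
  have h1 : out (single (Sum.inl t : τ ⊕ σ) 1) = 0 := by
    ext s; simp
  have h2 : inn (single (Sum.inl t : τ ⊕ σ) 1) = single t 1 := by
    classical
    ext t'
    simp [Finsupp.single_apply]
  rw [h1, h2] at h
  exact h

theorem sumAlgEquiv_X_inr (s : σ) :
    sumAlgEquiv σ τ R (X (Sum.inr s)) = X s := by
  have h := sumAlgEquiv_monomial (σ := σ) (τ := τ) (R := R) (single (Sum.inr s) 1) 1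
  have h1 : out (single (Sum.inr s : τ ⊕ σ) 1) = single s 1 := by
    classical
    ext s'
    simp [Finsupp.single_apply]
  have h2 : inn (single (Sum.inr s : τ ⊕ σ) 1) = 0 := by
    ext t; simp
  rw [h1, h2] at h
  exact h

theorem sumAlgEquiv_C (r : R) :
    sumAlgEquiv σ τ R (C r) = C (C r) := by
  have h := sumAlgEquiv_monomial (σ := σ) (τ := τ) (R := R) 0 r
  have h1 : out (0 : (τ ⊕ σ) →₀ ℕ) = 0 := by ext s; simp
  have h2 : inn (0 : (τ ⊕ σ) →₀ ℕ) = 0 := by ext t; simp
  rw [h1, h2] at h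
  exact h

end Fermat.Agent.S43.Local.Kit.SumInner
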