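/-
PROJECT R (row 37 by S43), LOCAL ALGEBRA KIT, bricks K1 + K2 of helper6's cut #6082 (helper25).

* K1 `sumAlgEquiv σ τ R : MvPowerSeries (σ ⊕ τ) R ≃ₐ[R] MvPowerSeries σ (MvPowerSeries τ R)`
  (`inl` = outer variables, `inr` = inner variables) and the swapped form `sumAlgEquiv'`
  (`inl` = inner variables, `inr` = outer variables);
* K2 `ker_map_mk` : for a finitely generated ideal `I` of `R` the kernel of
  `MvPowerSeries σ R → MvPowerSeries σ (R ⧸ I)` is `I.map C`, the map is onto, and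
  `quotMapCEquiv : (MvPowerSeries σ R ⧸ I.map C) ≃+* MvPowerSeries σ (R ⧸ I)`.
-/
import Mathlib

set_option autoImplicit false

noncomputable section

namespace Fermat.Agent.S43.Local.Kit.SumEquiv

open MvPowerSeries Finsupp Finset

/-! ### exponents on a sum type -/

section Exponents

variable {σ τ : Type*}

/-- the `inl` part of an exponent -/
def fstE (x : σ ⊕ τ →₀ ℕ) : σ →₀ ℕ := (sumFinsuppEquivProdFinsupp x).1

/-- the `inr` part of an exponent -/
def sndE (x : σ ⊕ τ →₀ ℕ) : τ →₀ ℕ := (sumFinsuppEquivProdFinsupp x).2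

@[simp] theorem fstE_apply (x : σ ⊕ τ →₀ ℕ) (i : σ) : fstE x i = x (Sum.inl i) :=
  fst_sumFinsuppEquivProdFinsupp x i

@[simp] theorem sndE_apply (x : σ ⊕ τ →₀ ℕ) (j : τ) : sndE x j = x (Sum.inr j) :=
  snd_sumFinsuppEquivProdFinsupp x j

@[simp] theorem fstE_sumElim (a : σ →₀ ℕ) (b : τ →₀ ℕ) : fstE (sumElim a b) = a := by
  ext i; simp

@[simp] theorem sndE_sumElim (a : σ →₀ ℕ) (b : τ →₀ ℕ) : sndE (sumElim a b) = b := by
  ext j; simp

@[simp] theorem sumElim_fstE_sndE (x : σ ⊕ τ →₀ ℕ) : sumElim (fstE x) (sndE x) = x := by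
  ext (i | j) <;> simp

@[simp] theorem fstE_add (x y : σ ⊕ τ →₀ ℕ) : fstE (x + y) = fstE x + fstE y := by
  ext i; simp

@[simp] theorem sndE_add (x y : σ ⊕ τ →₀ ℕ) : sndE (x + y) = sndE x + sndE y := by
  ext j; simp

@[simp] theorem fstE_zero : fstE (0 : σ ⊕ τ →₀ ℕ) = 0 := by
  ext i; simp

@[simp] theorem sndE_zero : sndE (0 : σ ⊕ τ →₀ ℕ) = 0 := by
  ext j; simp

theorem sumElim_inj {a a' : σ →₀ ℕ} {b b' : τ →₀ ℕ} :
    sumElim a b = sumElim a' b' ↔ a = a' ∧ b = b' := by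
  constructor
  · intro h
    exact ⟨by simpa using congrArg fstE h, by simpa using congrArg sndE h⟩
  · rintro ⟨rfl, rfl⟩; rfl

theorem eq_sumElim_iff {x : σ ⊕ τ →₀ ℕ} {a : σ →₀ ℕ} {b : τ →₀ ℕ} :
    x = sumElim a b ↔ fstE x = a ∧ sndE x = b := by
  constructor
  · rintro rfl; simp
  · rintro ⟨rfl, rfl⟩; simp

end Exponents

/-! ### K1 : the splitting equivalence -/

section K1

variable (σ τ R : Type*) [CommRing R]

/-- the underlying function of `sumAlgEquiv` -/
def sumFun (F : MvPowerSeries (σ ⊕ τ) R) : MvPowerSeries σ (MvPowerSeries τ R) :=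
  fun a => fun b => coeff (sumElim a b) F

/-- the underlying inverse function of `sumAlgEquiv` -/
def sumInv (G : MvPowerSeries σ (MvPowerSeries τ R)) : MvPowerSeries (σ ⊕ τ) R :=
  fun x => coeff (sndE x) (coeff (fstE x) G)

theorem coeff_coeff_sumFun (F : MvPowerSeries (σ ⊕ τ) R) (a : σ →₀ ℕ) (b : τ →₀ ℕ) :
    coeff b (coeff a (sumFun σ τ R F)) = coeff (sumElim a b) F := rfl

theorem coeff_sumInv (G : MvPowerSeries σ (MvPowerSeries τ R)) (x : σ ⊕ τ →₀ ℕ) :
    coeff x (sumInv σ τ R G) = coeff (sndE x) (coeff (fstE x) G) := rfl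

theorem sumFun_monomial (x : σ ⊕ τ →₀ ℕ) (r : R) :
    sumFun σ τ R (monomial x r) = monomial (fstE x) (monomial (sndE x) r) := by
  classical
  ext a b
  rw [coeff_coeff_sumFun, coeff_monomial, coeff_monomial]
  by_cases ha : a = fstE x
  · rw [if_pos ha, coeff_monomial]
    by_cases hb : b = sndE x
    · rw [if_pos hb, if_pos]
      rw [ha, hb]; simp
    · rw [if_neg hb, if_neg]
      intro h
      exact hb (by rw [← h]; simp)
  · rw [if_neg ha, map_zero, if_neg]
    intro h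
    exact ha (by rw [← h]; simp)

theorem sumFun_mul (F G : MvPowerSeries (σ ⊕ τ) R) :
    sumFun σ τ R (F * G) = sumFun σ τ R F * sumFun σ τ R G := by
  classical
  ext a b
  simp only [coeff_coeff_sumFun, coeff_mul, map_sum, sum_sigma']
  refine sum_bij (fun y _ => ⟨(fstE y.1, fstE y.2), (sndE y.1, sndE y.2)⟩) ?_ ?_ ?_ ?_
  · intro y hy
    rw [HasAntidiagonal.mem_antidiagonal] at hy
    simp only [mem_sigma, HasAntidiagonal.mem_antidiagonal]
    constructor
    · rw [← fstE_add, hy]; simp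
    · rw [← sndE_add, hy]; simp
  · intro y₁ _ y₂ _ h
    simp only [Sigma.mk.injEq, heq_eq_eq, Prod.mk.injEq] at h
    obtain ⟨⟨h1, h2⟩, h3, h4⟩ := h
    apply Prod.ext
    · rw [← sumElim_fstE_sndE y₁.1, ← sumElim_fstE_sndE y₂.1, h1, h3]
    · rw [← sumElim_fstE_sndE y₁.2, ← sumElim_fstE_sndE y₂.2, h2, h4]
  · rintro ⟨⟨a₁, a₂⟩, ⟨b₁, b₂⟩⟩ h
    simp only [mem_sigma, HasAntidiagonal.mem_antidiagonal] at h
    refine ⟨(sumElim a₁ b₁, sumElim a₂ b₂), ?_, ?_⟩
    · rw [HasAntidiagonal.mem_antidiagonal, ← sumElim_add, h.1, h.2]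
    · simp
  · intro y _
    simp only [sumElim_fstE_sndE]

theorem sumFun_C (r : R) : sumFun σ τ R (C r) = C (C r) := by
  have h := sumFun_monomial σ τ R (0 : σ ⊕ τ →₀ ℕ) r
  rw [fstE_zero, sndE_zero] at h
  exact h

/-- **K1** : `R[[σ ⊕ τ]] ≃ R[[τ]][[σ]]` (`inl` = outer variables, `inr` = inner variables) -/
def sumAlgEquiv : MvPowerSeries (σ ⊕ τ) R ≃ₐ[R] MvPowerSeries σ (MvPowerSeries τ R) where
  toFun := sumFun σ τ R
  invFun := sumInv σ τ R
  left_inv F := by
    ext x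
    rw [coeff_sumInv, coeff_coeff_sumFun, sumElim_fstE_sndE]
  right_inv G := by
    ext a b
    rw [coeff_coeff_sumFun, coeff_sumInv, fstE_sumElim, sndE_sumElim]
  map_mul' := sumFun_mul σ τ R
  map_add' F G := by
    ext a b
    simp only [coeff_coeff_sumFun, map_add]
  commutes' r := by
    rw [MvPowerSeries.algebraMap_apply, MvPowerSeries.algebraMap_apply,
      MvPowerSeries.algebraMap_apply, Algebra.algebraMap_self, RingHom.id_apply]
    exact sumFun_C σ τ R r

variable {σ τ R}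

@[simp] theorem coeff_coeff_sumAlgEquiv (F : MvPowerSeries (σ ⊕ τ) R) (a : σ →₀ ℕ)
    (b : τ →₀ ℕ) : coeff b (coeff a (sumAlgEquiv σ τ R F)) = coeff (sumElim a b) F := rfl

theorem coeff_sumAlgEquiv_symm (G : MvPowerSeries σ (MvPowerSeries τ R)) (x : σ ⊕ τ →₀ ℕ) :
    coeff x ((sumAlgEquiv σ τ R).symm G) = coeff (sndE x) (coeff (fstE x) G) := rfl

theorem sumAlgEquiv_monomial (x : σ ⊕ τ →₀ ℕ) (r : R) :
    sumAlgEquiv σ τ R (monomial x r) = monomial (fstE x) (monomial (sndE x) r) :=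
  sumFun_monomial σ τ R x r

@[simp] theorem sumAlgEquiv_C (r : R) : sumAlgEquiv σ τ R (C r) = C (C r) :=
  sumFun_C σ τ R r

@[simp] theorem sumAlgEquiv_X_inl (i : σ) : sumAlgEquiv σ τ R (X (Sum.inl i)) = X i := by
  classical
  have h := sumAlgEquiv_monomial (σ := σ) (τ := τ) (R := R) (single (Sum.inl i) 1) 1
  have h1 : fstE (single (Sum.inl i) 1 : σ ⊕ τ →₀ ℕ) = single i 1 := by
    ext k; simp [single_apply]
  have h2 : sndE (single (Sum.inl i) 1 : σ ⊕ τ →₀ ℕ) = 0 := by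
    ext k; simp
  rw [h1, h2] at h
  exact h

@[simp] theorem sumAlgEquiv_X_inr (j : τ) : sumAlgEquiv σ τ R (X (Sum.inr j)) = C (X j) := by
  classical
  have h := sumAlgEquiv_monomial (σ := σ) (τ := τ) (R := R) (single (Sum.inr j) 1) 1
  have h1 : fstE (single (Sum.inr j) 1 : σ ⊕ τ →₀ ℕ) = 0 := by
    ext k; simp
  have h2 : sndE (single (Sum.inr j) 1 : σ ⊕ τ →₀ ℕ) = single j 1 := by
    ext k; simp [single_apply]
  rw [h1, h2] at h
  exact h

end K1

/-! ### K1, swapped orientation -/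

section K1'

variable (σ τ R : Type*) [CommRing R]

/-- the underlying function of `sumAlgEquiv'` -/
def sumFun' (F : MvPowerSeries (σ ⊕ τ) R) : MvPowerSeries τ (MvPowerSeries σ R) :=
  fun b => fun a => coeff (sumElim a b) F

/-- the underlying inverse function of `sumAlgEquiv'` -/
def sumInv' (G : MvPowerSeries τ (MvPowerSeries σ R)) : MvPowerSeries (σ ⊕ τ) R :=
  fun x => coeff (fstE x) (coeff (sndE x) G)

theorem coeff_coeff_sumFun' (F : MvPowerSeries (σ ⊕ τ) R) (a : σ →₀ ℕ) (b : τ →₀ ℕ) :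
    coeff a (coeff b (sumFun' σ τ R F)) = coeff (sumElim a b) F := rfl

theorem coeff_sumInv' (G : MvPowerSeries τ (MvPowerSeries σ R)) (x : σ ⊕ τ →₀ ℕ) :
    coeff x (sumInv' σ τ R G) = coeff (fstE x) (coeff (sndE x) G) := rfl

theorem sumFun'_monomial (x : σ ⊕ τ →₀ ℕ) (r : R) :
    sumFun' σ τ R (monomial x r) = monomial (sndE x) (monomial (fstE x) r) := by
  classical
  ext b a
  rw [coeff_coeff_sumFun', coeff_monomial, coeff_monomial]
  by_cases hb : b = sndE x
  · rw [if_pos hb, coeff_monomial]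
    by_cases ha : a = fstE x
    · rw [if_pos ha, if_pos]
      rw [ha, hb]; simp
    · rw [if_neg ha, if_neg]
      intro h
      exact ha (by rw [← h]; simp)
  · rw [if_neg hb, map_zero, if_neg]
    intro h
    exact hb (by rw [← h]; simp)

theorem sumFun'_mul (F G : MvPowerSeries (σ ⊕ τ) R) :
    sumFun' σ τ R (F * G) = sumFun' σ τ R F * sumFun' σ τ R G := by
  classical
  ext b a
  simp only [coeff_coeff_sumFun', coeff_mul, map_sum, sum_sigma']
  refine sum_bij (fun y _ => ⟨(sndE y.1, sndE y.2), (fstE y.1, fstE y.2)⟩) ?_ ?_ ?_ ?_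
  · intro y hy
    rw [HasAntidiagonal.mem_antidiagonal] at hy
    simp only [mem_sigma, HasAntidiagonal.mem_antidiagonal]
    constructor
    · rw [← sndE_add, hy]; simp
    · rw [← fstE_add, hy]; simp
  · intro y₁ _ y₂ _ h
    simp only [Sigma.mk.injEq, heq_eq_eq, Prod.mk.injEq] at h
    obtain ⟨⟨h1, h2⟩, h3, h4⟩ := h
    apply Prod.ext
    · rw [← sumElim_fstE_sndE y₁.1, ← sumElim_fstE_sndE y₂.1, h1, h3]
    · rw [← sumElim_fstE_sndE y₁.2, ← sumElim_fstE_sndE y₂.2, h2, h4]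
  · rintro ⟨⟨b₁, b₂⟩, ⟨a₁, a₂⟩⟩ h
    simp only [mem_sigma, HasAntidiagonal.mem_antidiagonal] at h
    refine ⟨(sumElim a₁ b₁, sumElim a₂ b₂), ?_, ?_⟩
    · rw [HasAntidiagonal.mem_antidiagonal, ← sumElim_add, h.1, h.2]
    · simp
  · intro y _
    simp only [sumElim_fstE_sndE]

theorem sumFun'_C (r : R) : sumFun' σ τ R (C r) = C (C r) := by
  have h := sumFun'_monomial σ τ R (0 : σ ⊕ τ →₀ ℕ) r
  rw [fstE_zero, sndE_zero] at h
  exact h

/-- **K1, swapped** : `R[[σ ⊕ τ]] ≃ R[[σ]][[τ]]` (`inl` = inner variables, `inr` = outer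
variables) -/
def sumAlgEquiv' : MvPowerSeries (σ ⊕ τ) R ≃ₐ[R] MvPowerSeries τ (MvPowerSeries σ R) where
  toFun := sumFun' σ τ R
  invFun := sumInv' σ τ R
  left_inv F := by
    ext x
    rw [coeff_sumInv', coeff_coeff_sumFun', sumElim_fstE_sndE]
  right_inv G := by
    ext b a
    rw [coeff_coeff_sumFun', coeff_sumInv', fstE_sumElim, sndE_sumElim]
  map_mul' := sumFun'_mul σ τ R
  map_add' F G := by
    ext b a
    simp only [coeff_coeff_sumFun', map_add]
  commutes' r := by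
    rw [MvPowerSeries.algebraMap_apply, MvPowerSeries.algebraMap_apply,
      MvPowerSeries.algebraMap_apply, Algebra.algebraMap_self, RingHom.id_apply]
    exact sumFun'_C σ τ R r

variable {σ τ R}

@[simp] theorem coeff_coeff_sumAlgEquiv' (F : MvPowerSeries (σ ⊕ τ) R) (a : σ →₀ ℕ)
    (b : τ →₀ ℕ) : coeff a (coeff b (sumAlgEquiv' σ τ R F)) = coeff (sumElim a b) F := rfl

theorem coeff_sumAlgEquiv'_symm (G : MvPowerSeries τ (MvPowerSeries σ R)) (x : σ ⊕ τ →₀ ℕ) :
    coeff x ((sumAlgEquiv' σ τ R).symm G) = coeff (fstE x) (coeff (sndE x) G) := rfl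

theorem sumAlgEquiv'_monomial (x : σ ⊕ τ →₀ ℕ) (r : R) :
    sumAlgEquiv' σ τ R (monomial x r) = monomial (sndE x) (monomial (fstE x) r) :=
  sumFun'_monomial σ τ R x r

@[simp] theorem sumAlgEquiv'_C (r : R) : sumAlgEquiv' σ τ R (C r) = C (C r) :=
  sumFun'_C σ τ R r

@[simp] theorem sumAlgEquiv'_X_inl (i : σ) :
    sumAlgEquiv' σ τ R (X (Sum.inl i)) = C (X i) := by
  classical
  have h := sumAlgEquiv'_monomial (σ := σ) (τ := τ) (R := R) (single (Sum.inl i) 1) 1
  have h1 : fstE (single (Sum.inl i) 1 : σ ⊕ τ →₀ ℕ) = single i 1 := by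
    ext k; simp [single_apply]
  have h2 : sndE (single (Sum.inl i) 1 : σ ⊕ τ →₀ ℕ) = 0 := by
    ext k; simp
  rw [h1, h2] at h
  exact h

@[simp] theorem sumAlgEquiv'_X_inr (j : τ) : sumAlgEquiv' σ τ R (X (Sum.inr j)) = X j := by
  classical
  have h := sumAlgEquiv'_monomial (σ := σ) (τ := τ) (R := R) (single (Sum.inr j) 1) 1
  have h1 : fstE (single (Sum.inr j) 1 : σ ⊕ τ →₀ ℕ) = 0 := by
    ext k; simp
  have h2 : sndE (single (Sum.inr j) 1 : σ ⊕ τ →₀ ℕ) = single j 1 := by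
    ext k; simp [single_apply]
  rw [h1, h2] at h
  exact h

end K1'

/-! ### K2 : reduction of the coefficients modulo a finitely generated ideal -/

section K2

variable {σ R : Type*} [CommRing R]

/-- coefficientwise lifting -/
theorem map_mk_surjective (I : Ideal R) :
    Function.Surjective (MvPowerSeries.map (σ := σ) (Ideal.Quotient.mk I)) := by
  intro y
  choose c hc using fun d => Ideal.Quotient.mk_surjective (coeff d y)
  refine ⟨fun d => c d, ?_⟩
  ext d
  rw [coeff_map]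
  exact hc d

theorem map_C_le_ker_map_mk (I : Ideal R) :
    I.map (C (σ := σ) (R := R)) ≤ RingHom.ker (MvPowerSeries.map (σ := σ) (Ideal.Quotient.mk I)) := by
  rw [Ideal.map_le_iff_le_comap]
  intro a ha
  rw [Ideal.mem_comap, RingHom.mem_ker, map_C, Ideal.Quotient.eq_zero_iff_mem.mpr ha, map_zero]

/-- **K2** : the kernel of the coefficientwise reduction modulo a finitely generated ideal -/
theorem ker_map_mk (I : Ideal R) (hI : I.FG) :
    RingHom.ker (MvPowerSeries.map (σ := σ) (Ideal.Quotient.mk I)) =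
      I.map (C (σ := σ) (R := R)) := by
  classical
  apply le_antisymm _ (map_C_le_ker_map_mk I)
  obtain ⟨s, hs⟩ := hI
  intro x hx
  rw [RingHom.mem_ker] at hx
  have h : ∀ d, ∃ f : R → R, coeff d x = ∑ a ∈ s, f a * a := by
    intro d
    have h1 := congrArg (coeff d) hx
    rw [coeff_map, map_zero, Ideal.Quotient.eq_zero_iff_mem, ← hs] at h1
    obtain ⟨f, -, hf⟩ := Submodule.mem_span_finset.mp h1
    exact ⟨f, by rw [← hf]; rfl⟩
  choose f hf using h
  have hx' : x = ∑ a ∈ s, (C a : MvPowerSeries σ R) *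
      (show MvPowerSeries σ R from fun d => f d a) := by
    ext d
    rw [map_sum, hf d]
    apply Finset.sum_congr rfl
    intro a _
    rw [coeff_C_mul, mul_comm]
    rfl
  rw [hx']
  apply Ideal.sum_mem
  intro a ha
  apply Ideal.mul_mem_right
  apply Ideal.mem_map_of_mem
  rw [← hs]
  exact Ideal.subset_span ha

theorem ker_map_mk_span_singleton (π : R) :
    RingHom.ker (MvPowerSeries.map (σ := σ) (Ideal.Quotient.mk (Ideal.span {π}))) =
      Ideal.span {(C π : MvPowerSeries σ R)} := by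
  rw [ker_map_mk _ ⟨{π}, by simp⟩, Ideal.map_span, Set.image_singleton]

/-- **K2** : `R[[σ]] ⧸ I R[[σ]] ≃ (R ⧸ I)[[σ]]` for a finitely generated ideal `I` -/
def quotMapCEquiv (I : Ideal R) (hI : I.FG) :
    (MvPowerSeries σ R ⧸ I.map (C (σ := σ) (R := R))) ≃+* MvPowerSeries σ (R ⧸ I) :=
  (Ideal.quotEquivOfEq (ker_map_mk (σ := σ) I hI).symm).trans
    (RingHom.quotientKerEquivOfSurjective (map_mk_surjective (σ := σ) I))

@[simp] theorem quotMapCEquiv_mk (I : Ideal R) (hI : I.FG) (x : MvPowerSeries σ R) :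
    quotMapCEquiv I hI (Ideal.Quotient.mk _ x) = MvPowerSeries.map (Ideal.Quotient.mk I) x := rfl

/-- `C π` generates a prime ideal of `R[[σ]]` when `π` is a prime element of the domain `R` -/
theorem isPrime_span_C [IsDomain R] (π : R) (hπ : Prime π) :
    (Ideal.span {(C π : MvPowerSeries σ R)}).IsPrime := by
  rw [← ker_map_mk_span_singleton]
  have : (Ideal.span {π}).IsPrime := (Ideal.span_singleton_prime hπ.ne_zero).mpr hπ
  have : IsDomain (MvPowerSeries σ (R ⧸ Ideal.span {π})) := NoZeroDivisors.to_isDomain _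
  exact RingHom.ker_isPrime _

end K2

end Fermat.Agent.S43.Local.Kit.SumEquiv
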